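import Fermat.Agent.Arith.ResidueLift
import Fermat.Agent.EC.FrobTrace.FiniteField
import Fermat.Agent.EC.Reduction.GoodPrime
import Fermat.Agent.EC.Torsion.Galois
import Fermat.Prelude.Def_FLTPrelim_Modularity
import Fermat.Prelude.Def_EllipticCurve_FrobeniusTrace

/-!
# Trace and determinant of Frobenius on the `p`-torsion

For an integral model `W`, a prime `ℓ ≠ p` of good reduction and a Frobenius element `σ` at `ℓ`,
the characteristic polynomial of `σ` on `E[p]` is `X² - aₗ X + ℓ` modulo `p`.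
-/

set_option autoImplicit false

open scoped WeierstrassCurve.Affine
open WeierstrassCurve

namespace Fermat.Agent.EC.FrobTrace

local notation "Q̄" => AlgebraicClosure ℚ

/-- The generic fibre of an integral model with nonzero discriminant is elliptic. -/
theorem isElliptic_map_rat {W : WeierstrassCurve ℤ} (hΔ : W.Δ ≠ 0) :
    (W.map (Int.castRingHom ℚ)).IsElliptic :=
  ⟨by rw [isUnit_iff_ne_zero, WeierstrassCurve.map_Δ]; simpa using hΔ⟩

/-- A model with a good prime has nonzero discriminant. -/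
theorem Δ_ne_zero_of_isGoodPrimeFor {W : WeierstrassCurve ℤ} {n : ℕ}
    (h : W.IsGoodPrimeFor n) : W.Δ ≠ 0 :=
  fun h0 => h (h0 ▸ dvd_zero _)

variable {A : ValuationSubring (AlgebraicClosure ℚ)} {ℓ : ℕ}

open scoped Classical in
/-- `aₗ` is the trace of Frobenius of the reduction modulo `ℓ`. -/
theorem frobTraceInt_reductionMod (W : WeierstrassCurve ℤ) [Fact ℓ.Prime] :
    frobTraceInt (W.reductionMod ℓ) = W.apOfModel ℓ := by
  rw [frobTraceInt, WeierstrassCurve.apOfModel, WeierstrassCurve.traceOfFrobenius,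
    WeierstrassCurve.card, Nat.card_eq_fintype_card (α := ZMod ℓ)]

/-- The residue field at a place over `ℓ` is algebraic over the prime field. -/
theorem residueField_isAlgebraic (hA : A.LiesOverPrime ℓ) (hℓ : ℓ.Prime)
    [Algebra (ZMod ℓ) (IsLocalRing.ResidueField A)] :
    Algebra.IsAlgebraic (ZMod ℓ) (IsLocalRing.ResidueField A) :=
  have := Fact.mk hℓ
  ⟨fun z => (Arith.isIntegral_residue hA hℓ z).isAlgebraic⟩

open scoped Classical in
/-- On the curve over the residue field at a place over `ℓ` the Frobenius `F` satisfies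
`F² - aₗ F + ℓ = 0`; if it is the scalar `m` on the `p`-torsion, `ℓ ∤ p`, with
`m² - aₗ m + ℓ ≡ 0`, then `2 m ≡ aₗ` modulo `p`. -/
theorem residual_frobenius_facts (W : WeierstrassCurve ℤ) (hA : A.LiesOverPrime ℓ) (hℓ : ℓ.Prime)
    (hgood : W.IsGoodPrimeFor ℓ) :
    (∀ P : (W⁄(IsLocalRing.ResidueField A)).Point,
      Affine.Point.map (W' := W) (Reduction.residualFrobenius hA hℓ)
          (Affine.Point.map (W' := W) (Reduction.residualFrobenius hA hℓ) P)
        - W.apOfModel ℓ • Affine.Point.map (W' := W) (Reduction.residualFrobenius hA hℓ) P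
        + (ℓ : ℤ) • P = 0) ∧
    ∀ p : ℕ, p.Prime → ¬ ℓ ∣ p → ∀ m : ℤ,
      (p : ℤ) ∣ m ^ 2 - W.apOfModel ℓ * m + ℓ →
      (∀ P : (W⁄(IsLocalRing.ResidueField A)).Point, (p : ℤ) • P = 0 →
        Affine.Point.map (W' := W) (Reduction.residualFrobenius hA hℓ) P = m • P) →
      (p : ℤ) ∣ 2 * m - W.apOfModel ℓ := by
  have := Fact.mk hℓ
  set R := IsLocalRing.ResidueField A
  have : CharP R ℓ := Arith.residueField_charP hA hℓ
  let _ : Algebra (ZMod ℓ) R := ZMod.algebra R ℓ
  have : IsAlgClosed R := Arith.residueField_isAlgClosed A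
  have : Algebra.IsAlgebraic (ZMod ℓ) R := residueField_isAlgebraic hA hℓ
  have : (W.reductionMod ℓ).IsElliptic := ⟨by
    rw [isUnit_iff_ne_zero, WeierstrassCurve.reductionMod, WeierstrassCurve.map_Δ]
    exact fun h => hgood ((ZMod.intCast_zmod_eq_zero_iff_dvd _ _).mp h)⟩
  have hV : ((W.reductionMod ℓ)⁄R) = (W⁄R) := by
    show (W.map _).map _ = W.map _
    rw [WeierstrassCurve.map_map]
    exact congr_arg W.map (RingHom.ext_int _ _)
  have h := frobenius_facts (W.reductionMod ℓ) (L := R) (W⁄R) hV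
    (Affine.Point.map (W' := W) (Reduction.residualFrobenius hA hℓ)) (fun x y h => by
      rw [Affine.Point.map_some]
      simp only [ZMod.card]
      exact ⟨((W.toAffine).baseChange_nonsingular
        (f := Reduction.residualFrobenius hA hℓ) (RingHom.injective _) x y).mpr h, rfl⟩)
  rw [frobTraceInt_reductionMod, ZMod.card] at h
  exact ⟨h.1, fun p hp hdvd m h1 h2 => h.2 p hp (fun h0 => hdvd
    ((CharP.cast_eq_zero_iff R ℓ p).mp h0)) m h1 h2⟩

variable {σ : AlgebraicClosure ℚ ≃ₐ[ℚ] AlgebraicClosure ℚ} {p : ℕ}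

/-- A Frobenius element satisfies `σ² - aₗ σ + ℓ = 0` on `E[p]`, and if it is the scalar `m` there,
with `m² - aₗ m + ℓ ≡ 0`, then `2 m ≡ aₗ` modulo `p`. -/
theorem frobenius_torsion_facts (W : WeierstrassCurve ℤ) (hℓ : ℓ.Prime)
    (hgood : W.IsGoodPrimeFor ℓ) (hA : A.LiesOverPrime ℓ) (hσ : A.IsFrobeniusAt σ ℓ)
    (hp : p.Prime) (hne : ℓ ≠ p) :
    (∀ x : Submodule.torsionBy ℤ ((W.map (Int.castRingHom ℚ))⁄Q̄).Point p,
      σ • (σ • x) - W.apOfModel ℓ • (σ • x) + (ℓ : ℤ) • x = 0) ∧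
    ∀ m : ℤ, (p : ℤ) ∣ m ^ 2 - W.apOfModel ℓ * m + ℓ →
      (∀ x : Submodule.torsionBy ℤ ((W.map (Int.castRingHom ℚ))⁄Q̄).Point p, σ • x = m • x) →
      (p : ℤ) ∣ 2 * m - W.apOfModel ℓ := by
  classical
  set R := IsLocalRing.ResidueField A
  have : IsAlgClosed R := Arith.residueField_isAlgClosed A
  have : CharP R ℓ := Arith.residueField_charP hA hℓ
  have hndvd : ¬ ℓ ∣ p := fun h => hne ((Nat.prime_dvd_prime_iff_eq hℓ hp).mp h)
  set V : WeierstrassCurve.Affine R := W⁄R
  have h : Reduction.ReducesTo A ((W.map (Int.castRingHom ℚ))⁄Q̄) V :=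
    Reduction.reducesTo_int W A
  have hE0 : ∀ P, Reduction.InE0 A V P := Reduction.inE0_of_good hA hℓ hgood
  -- Reduction is injective on `p`-torsion and turns `σ` into the residual Frobenius.
  set red : ((W.map (Int.castRingHom ℚ))⁄Q̄).Point →+ (W⁄R).Point :=
    { toFun := Reduction.redFun A V
      map_zero' := Reduction.redFun_zero
      map_add' := fun P Q => (h.add_spec (hE0 P) (hE0 Q)).2 }
  have hinj : ∀ P, (p : ℤ) • P = 0 → red P = 0 → P = 0 := fun P hP hr =>
    h.eq_of_redFun_eq (Reduction.valuation_natCast_eq_one hA hℓ hndvd) (hE0 P) (hE0 0)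
      (by rw [← natCast_zsmul]; exact hP) (smul_zero _) hr
  have hsm : ∀ P, red (σ • P) =
      Affine.Point.map (W' := W) (Reduction.residualFrobenius hA hℓ) (red P) :=
    fun P => Reduction.redFun_frobenius W hA hℓ hσ P
  obtain ⟨hquad, hscalar⟩ := residual_frobenius_facts W hA hℓ hgood
  -- So the relations follow from those over the residue field.
  refine ⟨fun x => Subtype.ext (hinj _ ?_ ?_), fun m hroot hm => ?_⟩
  · exact (Submodule.mem_torsionBy_iff _ _).mp (Subtype.prop _)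
  · simp only [Submodule.coe_add, AddSubgroupClass.coe_sub, Submodule.coe_smul_of_tower,
      map_add, map_sub, map_zsmul]
    change red (σ • (σ • (x : ((W.map (Int.castRingHom ℚ))⁄Q̄).Point))) -
      W.apOfModel ℓ • red (σ • (x : ((W.map (Int.castRingHom ℚ))⁄Q̄).Point)) + _ = 0
    rw [hsm, hsm]
    exact hquad _
  · refine hscalar p hp hndvd m hroot fun P hP => ?_
    have : (W.map (Int.castRingHom ℚ)).IsElliptic :=
      isElliptic_map_rat (Δ_ne_zero_of_isGoodPrimeFor hgood)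
    have : V.IsElliptic := ⟨isUnit_iff_ne_zero.mpr (Reduction.residual_Δ_ne_zero hA hℓ hgood)⟩
    have hpR : (p : R) ≠ 0 := fun h0 => hndvd ((CharP.cast_eq_zero_iff R ℓ p).mp h0)
    have := Torsion.finite_torsionBy V hpR
    -- It is bijective on `p`-torsion, transporting scalarity.
    let f : Submodule.torsionBy ℤ ((W.map (Int.castRingHom ℚ))⁄Q̄).Point p →
        Submodule.torsionBy ℤ V.Point p := fun x => ⟨red x, by
      rw [Submodule.mem_torsionBy_iff]
      exact (map_zsmul red _ _).symm.trans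
        ((congrArg red ((Submodule.mem_torsionBy_iff _ _).mp x.2)).trans (map_zero red))⟩
    have hf : Function.Injective f := fun x x' e => Subtype.ext (sub_eq_zero.mp (hinj _
      ((Submodule.mem_torsionBy_iff _ _).mp ((Submodule.sub_mem _ x.2 x'.2)))
      (by rw [map_sub]; exact sub_eq_zero.mpr (congrArg Subtype.val e))))
    have hb : Function.Bijective f := (Nat.bijective_iff_injective_and_card f).mpr ⟨hf, by
      rw [Torsion.natCard_torsionBy_algebraicClosureRat (W.map (Int.castRingHom ℚ)) hp.ne_zero,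
        Torsion.natCard_torsionBy V hpR]⟩
    obtain ⟨x, hx⟩ := hb.2 ⟨P, (Submodule.mem_torsionBy_iff _ _).mpr hP⟩
    have hxP : red x = P := congrArg Subtype.val hx
    rw [← hxP, ← hsm, ← map_zsmul]
    exact congrArg red (congrArg Subtype.val (hm x))

/-- Trace, determinant and characteristic polynomial of a Frobenius element on `E[p]` together. -/
theorem frobenius_charpoly_aux (W : WeierstrassCurve ℤ) [Fact p.Prime] (hℓ : ℓ.Prime)
    (hgood : W.IsGoodPrimeFor ℓ) (hne : ℓ ≠ p) (hA : A.LiesOverPrime ℓ)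
    (hσ : A.IsFrobeniusAt σ ℓ) :
    LinearMap.trace (ZMod p) (Submodule.torsionBy ℤ ((W.map (Int.castRingHom ℚ))⁄Q̄).Point p)
        (Affine.Point.galoisRepModuleEnd ℚ (W.map (Int.castRingHom ℚ)) p σ) =
        (W.apOfModel ℓ : ZMod p) ∧
      LinearMap.det (Affine.Point.galoisRepModuleEnd (K := Q̄) ℚ (W.map (Int.castRingHom ℚ)) p σ)
        = (ℓ : ZMod p) ∧
      (have : Module.Finite (ZMod p)
          (Submodule.torsionBy ℤ ((W.map (Int.castRingHom ℚ))⁄Q̄).Point p) :=
        Module.finite_of_finrank_eq_succ (n := 1) (by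
          have : (W.map (Int.castRingHom ℚ)).IsElliptic :=
            isElliptic_map_rat (Δ_ne_zero_of_isGoodPrimeFor hgood)
          exact Torsion.finrank_torsionBy_baseChange _ _
            (Nat.cast_ne_zero.mpr (Fact.out : p.Prime).ne_zero))
      LinearMap.charpoly
          (Affine.Point.galoisRepModuleEnd (K := Q̄) ℚ (W.map (Int.castRingHom ℚ)) p σ) =
        Polynomial.X ^ 2 - Polynomial.C (W.apOfModel ℓ : ZMod p) * Polynomial.X +
          Polynomial.C (ℓ : ZMod p)) := by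
  have hp : p.Prime := Fact.out
  have : (W.map (Int.castRingHom ℚ)).IsElliptic :=
    isElliptic_map_rat (Δ_ne_zero_of_isGoodPrimeFor hgood)
  have hV := Torsion.finrank_torsionBy_baseChange (W.map (Int.castRingHom ℚ)) Q̄
    (p := p) (Nat.cast_ne_zero.mpr hp.ne_zero)
  have := Module.finite_of_finrank_eq_succ hV
  obtain ⟨hquad, hscalar⟩ := frobenius_torsion_facts W hℓ hgood hA hσ hp hne
  -- Read trace and determinant off the quadratic relation and the scalar case.
  refine trace_det_of_quadratic hV _ (W.apOfModel ℓ : ZMod p) (ℓ : ZMod p) (fun v => ?_)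
    (fun c hc => ?_)
  · have := hquad v
    rw [natCast_zsmul] at this
    rw [Int.cast_smul_eq_zsmul, Nat.cast_smul_eq_nsmul]
    exact this
  · obtain ⟨m, rfl⟩ := ZMod.intCast_surjective c
    have hsm : ∀ x : Submodule.torsionBy ℤ ((W.map (Int.castRingHom ℚ))⁄Q̄).Point p,
        σ • x = m • x := fun x => (hc x).trans (Int.cast_smul_eq_zsmul _ _ _)
    obtain ⟨v, hv⟩ : ∃ v : Submodule.torsionBy ℤ ((W.map (Int.castRingHom ℚ))⁄Q̄).Point p,
        v ≠ 0 := have := Module.nontrivial_of_finrank_eq_succ hV; exists_ne 0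
    have hN : ((m ^ 2 - W.apOfModel ℓ * m + ℓ : ℤ) : ZMod p) • v = 0 := by
      rw [Int.cast_smul_eq_zsmul]
      have := hquad v
      rw [hsm, hsm, smul_smul, smul_smul, ← sub_smul, ← add_smul, ← sq] at this
      exact this
    have hroot : (p : ℤ) ∣ m ^ 2 - W.apOfModel ℓ * m + ℓ :=
      (ZMod.intCast_zmod_eq_zero_iff_dvd _ _).mp ((smul_eq_zero.mp hN).resolve_right hv)
    have h2 := (ZMod.intCast_zmod_eq_zero_iff_dvd _ _).mpr (hscalar m hroot hsm)
    have h0 := (ZMod.intCast_zmod_eq_zero_iff_dvd _ _).mpr hroot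
    push_cast at h2 h0
    exact ⟨sub_eq_zero.mp h2, by linear_combination -h0 + (m : ZMod p) * h2⟩

/-- The trace of Frobenius on `E[p]` is `aₗ` modulo `p`. -/
theorem galoisTrace_frobenius (W : WeierstrassCurve ℤ) [Fact p.Prime] (hℓ : ℓ.Prime)
    (hgood : W.IsGoodPrimeFor ℓ) (hne : ℓ ≠ p) (hA : A.LiesOverPrime ℓ)
    (hσ : A.IsFrobeniusAt σ ℓ) :
    Affine.Point.galoisTrace (K := Q̄) ℚ (W.map (Int.castRingHom ℚ)) p σ =
      (W.apOfModel ℓ : ZMod p) :=
  (frobenius_charpoly_aux W hℓ hgood hne hA hσ).1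

/-- The determinant of Frobenius on `E[p]` is `ℓ` modulo `p`. -/
theorem det_frobenius (W : WeierstrassCurve ℤ) [Fact p.Prime] (hℓ : ℓ.Prime)
    (hgood : W.IsGoodPrimeFor ℓ) (hne : ℓ ≠ p) (hA : A.LiesOverPrime ℓ)
    (hσ : A.IsFrobeniusAt σ ℓ) :
    LinearMap.det (Affine.Point.galoisRepModuleEnd (K := Q̄) ℚ (W.map (Int.castRingHom ℚ)) p σ) =
      (ℓ : ZMod p) :=
  (frobenius_charpoly_aux W hℓ hgood hne hA hσ).2.1

/-- The characteristic polynomial of Frobenius on `E[p]`. -/
theorem charpoly_frobenius (W : WeierstrassCurve ℤ) [Fact p.Prime] (hℓ : ℓ.Prime)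
    (hgood : W.IsGoodPrimeFor ℓ) (hne : ℓ ≠ p) (hA : A.LiesOverPrime ℓ)
    (hσ : A.IsFrobeniusAt σ ℓ)
    [Module.Finite (ZMod p)
      (Submodule.torsionBy ℤ ((W.map (Int.castRingHom ℚ))⁄Q̄).Point p)] :
    LinearMap.charpoly
        (Affine.Point.galoisRepModuleEnd (K := Q̄) ℚ (W.map (Int.castRingHom ℚ)) p σ) =
      Polynomial.X ^ 2 - Polynomial.C (W.apOfModel ℓ : ZMod p) * Polynomial.X +
        Polynomial.C (ℓ : ZMod p) :=
  (frobenius_charpoly_aux W hℓ hgood hne hA hσ).2.2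

/-- Frobenius satisfies `x² - aₗ x + ℓ` on `E[p]`. -/
theorem frobenius_quadratic (W : WeierstrassCurve ℤ) (hp : p.Prime) (hℓ : ℓ.Prime)
    (hgood : W.IsGoodPrimeFor ℓ) (hne : ℓ ≠ p) (hA : A.LiesOverPrime ℓ)
    (hσ : A.IsFrobeniusAt σ ℓ)
    (x : Submodule.torsionBy ℤ ((W.map (Int.castRingHom ℚ))⁄Q̄).Point p) :
    σ • (σ • x) - W.apOfModel ℓ • (σ • x) + (ℓ : ℤ) • x = 0 :=
  (frobenius_torsion_facts W hℓ hgood hA hσ hp hne).1 x

end Fermat.Agent.EC.FrobTrace
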