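import Mathlib.AlgebraicGeometry.EllipticCurve.Affine.AddSubMap
import Mathlib.Tactic.LinearCombination
import Mathlib.Tactic.FieldSimp

/-!
# The addition-and-subtraction map computes x-coordinates
-/

set_option autoImplicit false

open WeierstrassCurve

namespace Fermat.Agent.EC.FrobTrace

variable {F : Type*} [Field F] [DecidableEq F] {W : WeierstrassCurve.Affine F}

/-- The value of `addSubMap` on a vector. -/
noncomputable def addSubVal (W : WeierstrassCurve F) (v : Fin 3 → F) : Fin 3 → F :=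
  fun i => MvPolynomial.eval v (W.addSubMap i)

omit [DecidableEq F] in
theorem addSubVal_apply (W : WeierstrassCurve F) (v : Fin 3 → F) :
    addSubVal W v = ![v 0 ^ 2 - W.b₄ * v 0 * v 2 - W.b₆ * v 1 * v 2 - W.b₈ * v 2 ^ 2,
      2 * v 1 * v 0 + W.b₂ * v 0 * v 2 + W.b₄ * v 1 * v 2 + W.b₆ * v 2 ^ 2,
      v 1 ^ 2 - 4 * v 0 * v 2] := by
  funext i
  fin_cases i <;> simp [addSubVal, WeierstrassCurve.addSubMap]

/-- The two points have the same abscissa: one of `P ± Q` is zero, the other a double. -/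
private theorem exists_addSubVal_eq_of_X_eq {x₁ y₁ y₂ : F} (h₁ : W.Nonsingular x₁ y₁)
    (h₂ : W.Nonsingular x₁ y₂) :
    ∃ c : F, ∀ i, addSubVal W ((Affine.Point.some x₁ y₁ h₁).sym2x (.some x₁ y₂ h₂)) i =
      c * (Affine.Point.some x₁ y₁ h₁ + .some x₁ y₂ h₂).sym2x
        (Affine.Point.some x₁ y₁ h₁ - .some x₁ y₂ h₂) i := by
  have e₂ := (W.equation_iff x₁ y₂).mp h₂.1
  rw [Affine.Point.sym2x_some_some, addSubVal_apply]
  -- Up to symmetry `P = ± Q`; split by whether this point has order two.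
  rcases (Affine.Point.X_eq_iff (h₁ := h₁) (h₂ := h₂)).mp rfl with hPQ | hPQ
  all_goals
    rw [hPQ]
    by_cases hy : y₂ = W.negY x₁ y₂
    · have hneg : -(Affine.Point.some x₁ y₂ h₂) = Affine.Point.some x₁ y₂ h₂ := by
        simp only [Affine.Point.neg_some, ← hy]
      have hdd : Affine.Point.some x₁ y₂ h₂ + Affine.Point.some x₁ y₂ h₂ = 0 :=
        Affine.Point.add_self_of_Y_eq hy
      refine ⟨x₁ ^ 4 - W.b₄ * x₁ ^ 2 - 2 * W.b₆ * x₁ - W.b₈, fun i => ?_⟩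
      simp only [hneg, sub_eq_add_neg, hdd]
      rw [Affine.negY] at hy
      fin_cases i
      · simp [Affine.Point.sym2x]; ring
      · simp [Affine.Point.sym2x]
        simp only [WeierstrassCurve.b₂, WeierstrassCurve.b₄, WeierstrassCurve.b₆]
        grind
      · simp [Affine.Point.sym2x]; ring
    · have hd : y₂ - W.negY x₁ y₂ ≠ 0 := sub_ne_zero.mpr hy
      refine ⟨(y₂ - W.negY x₁ y₂) ^ 2, fun i => ?_⟩
      simp only [sub_eq_add_neg, add_neg_cancel, neg_add_cancel, ← neg_add_rev,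
        Affine.Point.sym2x_neg_right,
        Affine.Point.add_self_of_Y_ne hy, Affine.slope_of_Y_ne rfl hy]
      -- Otherwise use the duplication formula.
      have hsum : (y₂ - W.negY x₁ y₂) ^ 2 * W.addX x₁ x₁
          ((3 * x₁ ^ 2 + 2 * W.a₂ * x₁ + W.a₄ - W.a₁ * y₂) / (y₂ - W.negY x₁ y₂)) =
          (3 * x₁ ^ 2 + 2 * W.a₂ * x₁ + W.a₄ - W.a₁ * y₂) ^ 2
          + W.a₁ * (3 * x₁ ^ 2 + 2 * W.a₂ * x₁ + W.a₄ - W.a₁ * y₂) * (y₂ - W.negY x₁ y₂)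
          - (W.a₂ + x₁ + x₁) * (y₂ - W.negY x₁ y₂) ^ 2 := by
        simp only [Affine.addX]; field_simp; ring
      simp only [← sub_eq_add_neg, Affine.Point.sym2x, Affine.Point.xRep_some,
        Affine.Point.xRep_zero]
      generalize W.addX x₁ x₁ ((3 * x₁ ^ 2 + 2 * W.a₂ * x₁ + W.a₄ - W.a₁ * y₂) /
        (y₂ - W.negY x₁ y₂)) = X₃ at hsum ⊢
      fin_cases i <;> simp [-mul_eq_mul_left_iff, -Affine.negY]
      · rw [hsum]
        simp only [Affine.negY, WeierstrassCurve.b₄,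
          WeierstrassCurve.b₆, WeierstrassCurve.b₈]
        linear_combination (4 * W.a₂ + W.a₁ ^ 2 + 8 * x₁) * e₂
      · simp only [Affine.negY, WeierstrassCurve.b₂, WeierstrassCurve.b₄,
          WeierstrassCurve.b₆]
        linear_combination -4 * e₂
      all_goals ring

/-- The two points have different abscissae: both sums are chords. -/
private theorem exists_addSubVal_eq_of_X_ne {x₁ y₁ x₂ y₂ : F} (h₁ : W.Nonsingular x₁ y₁)
    (h₂ : W.Nonsingular x₂ y₂) (hx : x₁ ≠ x₂) :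
    ∃ c : F, ∀ i, addSubVal W ((Affine.Point.some x₁ y₁ h₁).sym2x (.some x₂ y₂ h₂)) i =
      c * (Affine.Point.some x₁ y₁ h₁ + .some x₂ y₂ h₂).sym2x
        (Affine.Point.some x₁ y₁ h₁ - .some x₂ y₂ h₂) i := by
  have e₁ := (W.equation_iff x₁ y₁).mp h₁.1
  have e₂ := (W.equation_iff x₂ y₂).mp h₂.1
  have hd : x₁ - x₂ ≠ 0 := sub_ne_zero.mpr hx
  refine ⟨(x₁ - x₂) ^ 2, fun i => ?_⟩
  rw [Affine.Point.sym2x_some_some, addSubVal_apply]
  simp only [sub_eq_add_neg, Affine.Point.neg_some, Affine.Point.add_of_X_ne hx,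
    Affine.Point.sym2x_some_some, Affine.slope_of_X_ne hx]
  have hsum : (x₁ - x₂) ^ 2 * W.addX x₁ x₂ ((y₁ - y₂) / (x₁ - x₂)) =
      (y₁ - y₂) ^ 2 + W.a₁ * (y₁ - y₂) * (x₁ - x₂) - (W.a₂ + x₁ + x₂) * (x₁ - x₂) ^ 2 := by
    simp only [Affine.addX]; field_simp; ring
  have hdiff : (x₁ - x₂) ^ 2 * W.addX x₁ x₂ ((y₁ - W.negY x₂ y₂) / (x₁ - x₂)) =
      (y₁ + y₂ + W.a₁ * x₂ + W.a₃) ^ 2 + W.a₁ * (y₁ + y₂ + W.a₁ * x₂ + W.a₃) * (x₁ - x₂)
        - (W.a₂ + x₁ + x₂) * (x₁ - x₂) ^ 2 := by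
    simp only [Affine.addX, Affine.negY]; field_simp; ring
  simp only [← sub_eq_add_neg]
  generalize W.addX x₁ x₂ ((y₁ - y₂) / (x₁ - x₂)) = X₃ at hsum ⊢
  generalize W.addX x₁ x₂ ((y₁ - W.negY x₂ y₂) / (x₁ - x₂)) = X₄ at hdiff ⊢
  fin_cases i <;> simp
  · apply mul_left_cancel₀ (pow_ne_zero 2 hd)
    rw [show ∀ D A B : F, D * (D * (A * B)) = (D * A) * (D * B) from fun D A B => by ring,
      hsum, hdiff]
    simp only [WeierstrassCurve.b₄, WeierstrassCurve.b₆,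
      WeierstrassCurve.b₈]
    linear_combination ((-1) * W.a₆ + 2 * y₂ * W.a₃ + 2 * y₂ ^ 2 + (-1) * y₁ * W.a₃
      + (-1) * y₁ ^ 2 + x₂ *
        W.a₁ * W.a₃ + 2 * x₂ * y₂ * W.a₁ + 2 * x₂ ^ 2 * W.a₂ + x₂ ^ 2 * W.a₁ ^ 2 + 2 * x₂ ^ 3
        + (-1) * x₁ * W.a₄ + (-1) * x₁ * W.a₁ * W.a₃ + (-1) * x₁ * y₁ * W.a₁ + (-4) * x₁ * x₂
        * W.a₂ + (-1) * x₁ * x₂ * W.a₁ ^ 2 + (-2) * x₁ * x₂ ^ 2 + x₁ ^ 2 * W.a₂ + (-2) * x₁ ^
        2 * x₂ + x₁ ^ 3) * e₁ + (W.a₆ + (-1) * y₂ * W.a₃ + (-1) * y₂ ^ 2 + (-1) * x₂ * W.a₄ +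
            (-1) * x₂ * W.a₁ * W.a₃ +
        (-1) * x₂ * y₂ * W.a₁ + x₂ ^ 2 * W.a₂ + x₂ ^ 3 + 2 * x₁ * W.a₄ + x₁ * W.a₁ * W.a₃ +
        (-4) * x₁ * x₂ * W.a₂ + (-1) * x₁ * x₂ * W.a₁ ^ 2 + (-2) * x₁ * x₂ ^ 2 + 4 * x₁ ^ 2 *
        W.a₂ + x₁ ^ 2 * W.a₁ ^ 2 + (-2) * x₁ ^ 2 * x₂ + 4 * x₁ ^ 3) * e₂
  · simp only [WeierstrassCurve.b₂, WeierstrassCurve.b₄, WeierstrassCurve.b₆]
    linear_combination -2 * e₁ - 2 * e₂ - hsum - hdiff
  · ring

theorem exists_addSubVal_eq_aux (P Q : W.Point) :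
    ∃ c : F, ∀ i, addSubVal W (P.sym2x Q) i = c * (P + Q).sym2x (P - Q) i := by
  rcases P with _ | ⟨x₁, y₁, h₁⟩ <;> rcases Q with _ | ⟨x₂, y₂, h₂⟩
  · refine ⟨1, fun i => ?_⟩
    rw [← Affine.Point.zero_def, add_zero, sub_zero, addSubVal_apply]
    fin_cases i <;> simp [Affine.Point.sym2x]
  · refine ⟨1, fun i => ?_⟩
    rw [← Affine.Point.zero_def, zero_add, zero_sub, Affine.Point.sym2x_neg_right, addSubVal_apply]
    fin_cases i <;> simp [Affine.Point.sym2x] <;> ring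
  · refine ⟨1, fun i => ?_⟩
    rw [← Affine.Point.zero_def, add_zero, sub_zero, addSubVal_apply]
    fin_cases i <;> simp [Affine.Point.sym2x] <;> ring
  · by_cases hx : x₁ = x₂
    · subst hx
      exact exists_addSubVal_eq_of_X_eq h₁ h₂
    · exact exists_addSubVal_eq_of_X_ne h₁ h₂ hx

omit [DecidableEq F] in
theorem addSubVal_ne_zero (W : WeierstrassCurve F) [W.IsElliptic] {v : Fin 3 → F} (hv : v ≠ 0) :
    addSubVal W v ≠ 0 :=
  W.addSubMap_ne_zero hv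

/-- Up to a nonzero scalar, `addSubMap` sends `sym2x P Q` to `sym2x (P+Q) (P-Q)`. -/
theorem exists_addSubVal_eq [W.IsElliptic] (P Q : W.Point) :
    ∃ c : F, c ≠ 0 ∧ ∀ i, addSubVal W (P.sym2x Q) i = c * (P + Q).sym2x (P - Q) i := by
  obtain ⟨c, hc⟩ := exists_addSubVal_eq_aux P Q
  refine ⟨c, fun h => addSubVal_ne_zero W (Affine.Point.sym2x_ne_zero P Q) ?_, hc⟩
  funext i
  rw [hc i, h, zero_mul, Pi.zero_apply]

/-- Naturality of `addSubMap` in the coefficient ring. -/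
theorem aeval_addSubMap {R S : Type*} [CommRing R] [Field S] [Algebra R S]
    (W : WeierstrassCurve R) (x : Fin 3 → S) (i : Fin 3) :
    MvPolynomial.aeval x (W.addSubMap i) = addSubVal (W.map (algebraMap R S)) x i := by
  rw [addSubVal_apply]
  fin_cases i <;> simp [WeierstrassCurve.addSubMap, ← map_ofNat (algebraMap R S)]

end Fermat.Agent.EC.FrobTrace
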