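import Fermat.Agent.EC.FrobTrace.Degree
import Mathlib.FieldTheory.Finite.Basic

/-!
# Manin's count: the numerator of the abscissa of Frobenius minus one

For the generic point `gen` and its Frobenius image `φ gen`, this numerator is a polynomial of
degree `2q + 1` in the abscissa with leading coefficient `1` (`exists_numN_eq`).
-/

set_option autoImplicit false

open Polynomial
open scoped Polynomial.Bivariate
open WeierstrassCurve

namespace Fermat.Agent.EC.FrobTrace

variable {k : Type*} [Field k] [Fintype k] (W : WeierstrassCurve.Affine k)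

local notation "q" => Fintype.card k

/-- The `q`-power Frobenius. -/
noncomputable abbrev frobHom (L : Type*) [CommRing L] [Algebra k L] : L →ₐ[k] L :=
  FiniteField.frobeniusAlgHom k L

theorem frobHom_apply {L : Type*} [CommRing L] [Algebra k L] (x : L) :
    frobHom (k := k) L x = x ^ q :=
  rfl

/-- `X ^ q - X`. -/
noncomputable def frobPoly (k : Type*) [Field k] [Fintype k] : k[X] :=
  X ^ Fintype.card k - X

theorem frobPoly_eq_prod : frobPoly k = ∏ x : k, (X - C x) := by
  have hroots := FiniteField.roots_X_pow_card_sub_X k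
  have h1 : 1 < q := Fintype.one_lt_card
  have hm : (frobPoly k).Monic := monic_X_pow_sub (by rw [degree_X]; exact_mod_cast h1)
  have hn : (frobPoly k).natDegree = q := FiniteField.X_pow_card_sub_X_natDegree_eq k h1
  have := prod_multiset_X_sub_C_of_monic_of_roots_card_eq hm (by
    rw [hn, frobPoly, hroots]; rfl)
  rw [frobPoly, hroots] at this
  exact this.symm

theorem frobPoly_ne_zero : frobPoly k ≠ 0 :=
  FiniteField.X_pow_card_sub_X_ne_zero k Fintype.one_lt_card

theorem exists_frobPoly_eq (x₀ : k) : ∃ D₁, frobPoly k = (X - C x₀) * D₁ := by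
  rw [frobPoly_eq_prod]
  exact dvd_iff_exists_eq_mul_right.mp (Finset.dvd_prod_of_mem _ (Finset.mem_univ x₀))

/-- `Y ^ q - negY`. -/
noncomputable def numE : W.CoordinateRing := rootY W ^ q - conjCoord W (rootY W)

/-- The numerator of the abscissa of `φ(G) - G`. -/
noncomputable def numN : W.CoordinateRing :=
  numE W ^ 2 + toCoord W (C W.a₁) * numE W * toCoord W (frobPoly k) -
    toCoord W ((C W.a₂ + X ^ q + X) * frobPoly k ^ 2)

omit [Fintype k] in
theorem toCoord_C (a : k) : toCoord W (C a) = algebraMap k W.CoordinateRing a := by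
  rw [← Polynomial.algebraMap_eq, AlgHom.commutes]

theorem frobHom_rootY_equation :
    (rootY W ^ q) ^ 2 + toCoord W (C W.a₁ * X ^ q + C W.a₃) * rootY W ^ q =
      toCoord W ((X ^ q) ^ 3 + C W.a₂ * (X ^ q) ^ 2 + C W.a₄ * X ^ q + C W.a₆) := by
  have h := congrArg (frobHom (k := k) W.CoordinateRing) (rootY_equation W)
  simp only [map_add, map_mul, map_pow, toCoord_C, AlgHom.commutes] at h ⊢
  simpa only [frobHom_apply] using h

theorem conjCoord_rootY_pow :
    conjCoord W (rootY W ^ q) = -rootY W ^ q - toCoord W (C W.a₁ * X ^ q + C W.a₃) := by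
  rw [map_pow, conjCoord_rootY, ← frobHom_apply (k := k)]
  simp only [map_sub, map_neg, map_add, map_mul, map_pow, toCoord_C, AlgHom.commutes,
    frobHom_apply]

theorem conjCoord_numN : conjCoord W (numN W) = numN W := by
  have hE : conjCoord W (numE W) = -numE W - toCoord W (C W.a₁) * toCoord W (frobPoly k) := by
    rw [numE, map_sub, conjCoord_rootY_pow, conjCoord_conjCoord, conjCoord_rootY, frobPoly]
    simp only [map_sub, map_add, map_mul, map_pow]
    ring
  rw [numN]
  simp only [map_sub (conjCoord W), map_add (conjCoord W), map_mul (conjCoord W),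
    map_pow (conjCoord W), conjCoord_toCoord, hE]
  ring

/-- Bound for the pole order at infinity. -/
def PoleLE (z : W.CoordinateRing) (n : ℕ) : Prop :=
  (Algebra.norm k[X] z).degree ≤ n

omit [Fintype k] in
theorem degree_norm (p r : k[X]) :
    (Algebra.norm k[X] (toCoord W p + toCoord W r * rootY W)).degree =
      max (2 • p.degree) (2 • r.degree + 3) := by
  have h : toCoord W p + toCoord W r * rootY W =
      p • (1 : W.CoordinateRing) + r • Affine.CoordinateRing.mk W Y := by
    rw [Algebra.smul_def, Algebra.smul_def, mul_one]; rfl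
  rw [h, Affine.CoordinateRing.degree_norm_smul_basis]

variable {W}

omit [Fintype k] in
/-- Bounds on the pole order at infinity may be weakened. -/
theorem PoleLE.mono {z : W.CoordinateRing} {m n : ℕ} (hz : PoleLE W z m) (h : m ≤ n) :
    PoleLE W z n :=
  hz.trans (by exact_mod_cast h)

omit [Fintype k] in
/-- Pole orders at infinity add under multiplication. -/
theorem PoleLE.mul {z w : W.CoordinateRing} {m n : ℕ} (hz : PoleLE W z m) (hw : PoleLE W w n) :
    PoleLE W (z * w) (m + n) := by
  rw [PoleLE, map_mul, Polynomial.degree_mul, Nat.cast_add]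
  exact add_le_add hz hw

omit [Fintype k] in
/-- Pole order bound for powers. -/
theorem PoleLE.pow {z : W.CoordinateRing} {m : ℕ} (hz : PoleLE W z m) (n : ℕ) :
    PoleLE W (z ^ n) (n * m) := by
  induction n with
  | zero => simp [PoleLE]
  | succ n ih =>
    rw [pow_succ, Nat.succ_mul]
    exact ih.mul hz

omit [Fintype k] in
theorem two_nsmul_max (a b : WithBot ℕ) : 2 • max a b = max (2 • a) (2 • b) := by
  rcases le_total a b with h | h
  · rw [max_eq_right h, max_eq_right (nsmul_le_nsmul_right h 2)]
  · rw [max_eq_left h, max_eq_left (nsmul_le_nsmul_right h 2)]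

omit [Fintype k] in
/-- A common pole bound holds for a sum. -/
theorem PoleLE.add {z w : W.CoordinateRing} {n : ℕ} (hz : PoleLE W z n) (hw : PoleLE W w n) :
    PoleLE W (z + w) n := by
  obtain ⟨p, r, rfl⟩ := exists_eq_add_mul_rootY W z
  obtain ⟨p', r', rfl⟩ := exists_eq_add_mul_rootY W w
  rw [PoleLE, degree_norm, max_le_iff] at hz hw
  rw [PoleLE, show toCoord W p + toCoord W r * rootY W + (toCoord W p' + toCoord W r' * rootY W) =
    toCoord W (p + p') + toCoord W (r + r') * rootY W by rw [map_add, map_add]; ring,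
    degree_norm, max_le_iff]
  constructor
  · calc 2 • (p + p').degree ≤ 2 • max p.degree p'.degree :=
        nsmul_le_nsmul_right (degree_add_le _ _) 2
      _ ≤ n := by rw [two_nsmul_max]; exact max_le hz.1 hw.1
  · calc 2 • (r + r').degree + 3 ≤ 2 • max r.degree r'.degree + 3 :=
        add_le_add (nsmul_le_nsmul_right (degree_add_le _ _) 2) le_rfl
      _ ≤ n := by rw [two_nsmul_max, ← max_add_add_right]; exact max_le hz.2 hw.2

omit [Fintype k] in
/-- Negation preserves pole bounds. -/
theorem PoleLE.neg {z : W.CoordinateRing} {n : ℕ} (hz : PoleLE W z n) : PoleLE W (-z) n := by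
  obtain ⟨p, r, rfl⟩ := exists_eq_add_mul_rootY W z
  rw [PoleLE, degree_norm] at hz
  rwa [PoleLE, show -(toCoord W p + toCoord W r * rootY W) =
    toCoord W (-p) + toCoord W (-r) * rootY W by rw [map_neg, map_neg]; ring, degree_norm,
    degree_neg, degree_neg]

omit [Fintype k] in
theorem poleLE_toCoord {p : k[X]} {n : ℕ} (hp : p.natDegree ≤ n) :
    PoleLE W (toCoord W p) (2 * n) := by
  rw [PoleLE, show toCoord W p = toCoord W p + toCoord W 0 * rootY W by simp, degree_norm]
  simp only [degree_zero, nsmul_eq_mul, max_le_iff]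
  refine ⟨?_, by simp⟩
  calc ((2 : ℕ) : WithBot ℕ) * p.degree = 2 • p.degree := (nsmul_eq_mul _ _).symm
    _ ≤ 2 • (n : WithBot ℕ) := nsmul_le_nsmul_right (degree_le_of_natDegree_le hp) 2
    _ = _ := by rw [nsmul_eq_mul]; push_cast; rfl

omit [Fintype k] in
theorem poleLE_rootY : PoleLE W (rootY W) 3 := by
  rw [PoleLE, show rootY W = toCoord W 0 + toCoord W 1 * rootY W by simp, degree_norm]
  simp

omit [Fintype k] in
theorem poleLE_conj_rootY : PoleLE W (conjCoord W (rootY W)) 3 := by
  rw [conjCoord_rootY, sub_eq_add_neg]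
  refine poleLE_rootY.neg.add (PoleLE.neg ((poleLE_toCoord (n := 1) ?_).mono (by norm_num)))
  exact natDegree_linear_le

variable (W)

theorem exists_numN_eq [W.IsElliptic] :
    ∃ R : k[X], numN W = toCoord W R ∧ DegTop R (2 * q + 1) 1 := by
  obtain ⟨w, hw⟩ : ∃ w, w = conjCoord W (rootY W) := ⟨_, rfl⟩
  set Xc := toCoord W X with hXc
  have h2 : 2 ≤ q := Fintype.one_lt_card
  -- Expand the numerator: `X ^ (2q + 1)` plus lower terms.
  have hlow : numN W = toCoord W (X ^ (2 * q + 1)) +
      (Xc ^ (q + 2) + toCoord W (C (-2)) * (rootY W ^ q * w) +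
        toCoord W (C (-W.a₁)) * (rootY W ^ q * Xc + w * Xc ^ q) +
        toCoord W (C (2 * W.a₂)) * Xc ^ (q + 1) +
        toCoord W (C (-W.a₃)) * (rootY W ^ q + w) + toCoord W (C W.a₄) * (Xc ^ q + Xc) +
        toCoord W (C (2 * W.a₆))) := by
    have e1 := frobHom_rootY_equation W
    have e2 := congrArg (conjCoord W) (rootY_equation W)
    simp only [map_add (conjCoord W), map_mul (conjCoord W), map_pow (conjCoord W),
      conjCoord_toCoord, ← hw] at e2
    simp only [numN, numE, frobPoly, map_add, map_mul, map_pow, map_sub, map_neg, map_ofNat,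
      ← hXc, ← hw] at e1 e2 ⊢
    linear_combination e1 + e2
  -- It is fixed by conjugation, so is a polynomial in `X`.
  obtain ⟨R, hR⟩ := eq_toCoord_of_conjCoord_eq W (conjCoord_numN W)
  refine ⟨R, hR, ?_⟩
  have hXp : ∀ j : ℕ, PoleLE W (Xc ^ j) (2 * j) := fun j => by
    rw [hXc, ← map_pow]; exact poleLE_toCoord (natDegree_X_pow j).le
  have hX1 : PoleLE W Xc 2 := by simpa using hXp 1
  have hC : ∀ a : k, PoleLE W (toCoord W (C a)) 0 := fun a =>
    poleLE_toCoord (n := 0) (natDegree_C a).le
  have hw3 : PoleLE W w 3 := hw ▸ poleLE_conj_rootY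
  have hYq : PoleLE W (rootY W ^ q) (q * 3) := poleLE_rootY.pow q
  -- The other terms have pole order at most `4q + 1`, bounding their degree by `2q`.
  have hle : PoleLE W (toCoord W (R - X ^ (2 * q + 1))) (4 * q + 1) := by
    rw [map_sub, ← hR, hlow, add_sub_cancel_left]
    refine PoleLE.add (PoleLE.add (PoleLE.add (PoleLE.add (PoleLE.add (PoleLE.add ?_ ?_) ?_) ?_)
      ?_) ?_) ((hC _).mono (Nat.zero_le _))
    · exact (hXp _).mono (by omega)
    · exact ((hC _).mul (hYq.mul hw3)).mono (by omega)
    · exact ((hC _).mul (((hYq.mul hX1).mono (n := 3 * q + 3) (by omega)).add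
        ((hw3.mul (hXp q)).mono (by omega)))).mono (by omega)
    · exact ((hC _).mul (hXp _)).mono (by omega)
    · exact ((hC _).mul ((hYq.mono (n := 3 * q + 3) (by omega)).add
        (hw3.mono (by omega)))).mono (by omega)
    · exact ((hC _).mul (((hXp q).mono (n := 2 * q + 2) (by omega)).add
        (hX1.mono (by omega)))).mono (by omega)
  have hdeg : (R - X ^ (2 * q + 1)).natDegree ≤ 2 * q := by
    rw [PoleLE, show toCoord W (R - X ^ (2 * q + 1)) =
      toCoord W (R - X ^ (2 * q + 1)) + toCoord W 0 * rootY W by simp, degree_norm, max_le_iff]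
      at hle
    by_cases h0 : R - X ^ (2 * q + 1) = 0
    · simp [h0]
    · have h1 := hle.1
      rw [degree_eq_natDegree h0, nsmul_eq_mul] at h1
      have : 2 * (R - X ^ (2 * q + 1)).natDegree ≤ 4 * q + 1 := by exact_mod_cast h1
      omega
  have hR' : R = (R - X ^ (2 * q + 1)) + X ^ (2 * q + 1) := by ring
  constructor
  · rw [hR']
    exact natDegree_add_le_of_degree_le (hdeg.trans (by omega)) (natDegree_X_pow _).le
  · rw [hR', coeff_add, coeff_eq_zero_of_natDegree_lt (by omega), coeff_X_pow, if_pos rfl,
      zero_add]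

end Fermat.Agent.EC.FrobTrace
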