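import Fermat.Agent.EC.FrobTrace.Count

/-!
# Cancellation in Manin's fraction and the count of rational points

The degree of Frobenius minus one is the number of rational points
(`xDeg_frobPoint_gen_sub_gen`).
-/

set_option autoImplicit false

open Polynomial
open scoped WeierstrassCurve.Affine
open WeierstrassCurve

namespace Fermat.Agent.EC.FrobTrace

variable {k : Type*} [Field k] (W : WeierstrassCurve.Affine k)

/-! ### Fibres over an abscissa -/

theorem equation_baseChange_iff {L : Type*} [Field L] [Algebra k L] (x y : L) :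
    (W⁄L).Equation x y ↔
      y ^ 2 + algebraMap k L W.a₁ * x * y + algebraMap k L W.a₃ * y =
        x ^ 3 + algebraMap k L W.a₂ * x ^ 2 + algebraMap k L W.a₄ * x + algebraMap k L W.a₆ := by
  rw [Affine.equation_iff]
  rfl

theorem equation_algebraMap {L : Type*} [Field L] [Algebra k L] {x y : k} (h : W.Equation x y) :
    (W⁄L).Equation (algebraMap k L x) (algebraMap k L y) := by
  rw [equation_baseChange_iff]
  have h' := congrArg (algebraMap k L) ((W.equation_iff x y).mp h)
  simp only [map_add, map_mul, map_pow] at h'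
  exact h'

theorem dvd_of_toCoord_mul {p t : k[X]} {z : W.CoordinateRing}
    (h : toCoord W p = toCoord W t * z) : t ∣ p := by
  obtain ⟨u, v, rfl⟩ := exists_eq_add_mul_rootY W z
  have h0 : toCoord W (p - t * u) + toCoord W (-(t * v)) * rootY W = 0 := by
    rw [map_sub, map_neg, map_mul, map_mul, h]
    ring
  exact ⟨u, sub_eq_zero.mp (eq_zero_of_add_mul_rootY W h0).1⟩

variable [Fintype k]

local notation "q" => Fintype.card k

theorem eq_algebraMap_of_pow_card {L : Type*} [Field L] [Algebra k L] {b : L} (hb : b ^ q = b) :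
    ∃ a : k, b = algebraMap k L a := by
  have h : aeval b (frobPoly k) = 0 := by simp [frobPoly, hb]
  rw [frobPoly_eq_prod, map_prod, Finset.prod_eq_zero_iff] at h
  obtain ⟨a, -, ha⟩ := h
  exact ⟨a, sub_eq_zero.mp (by simpa using ha)⟩

theorem aeval_numN [W.IsElliptic] {R : k[X]} (hR : numN W = toCoord W R) {L : Type*} [Field L]
    [Algebra k L] {x₀ : k} {b : L} (hb : (W⁄L).Equation (algebraMap k L x₀) b) :
    algebraMap k L (R.eval x₀) =
      (b ^ q - (W⁄L).negY (algebraMap k L x₀) b) ^ 2 := by
  have hD : (frobPoly k).eval x₀ = 0 := by simp [frobPoly, FiniteField.pow_card]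
  have h := congrArg (evalHom hb) hR
  rw [evalHom_toCoord, aeval_algebraMap_apply_eq_algebraMap_eval] at h
  rw [← h, numN, numE]
  simp only [map_sub (evalHom hb), map_add (evalHom hb), map_mul (evalHom hb),
    map_pow (evalHom hb), evalHom_toCoord, evalHom_rootY, conjCoord_rootY, map_neg (evalHom hb),
    aeval_algebraMap_apply_eq_algebraMap_eval, hD]
  simp [Affine.negY]
  rw [hD, map_zero]
  ring

open scoped Classical in
/-- The ordinates of the rational points with abscissa `x₀`. -/
noncomputable def fiber (x₀ : k) : Finset k :=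
  Finset.univ.filter fun y => W.Equation x₀ y

/-- `fiber W x₀` consists of the ordinates over `x₀`. -/
theorem mem_fiber {x₀ y : k} : y ∈ fiber W x₀ ↔ W.Equation x₀ y := by
  simp [fiber]

open scoped Classical in
/-- The ordinates over `x₀` are those of a point and its negative. -/
theorem fiber_eq {x₀ y : k} (h : W.Equation x₀ y) : fiber W x₀ = {y, W.negY x₀ y} := by
  ext z
  rw [mem_fiber, Finset.mem_insert, Finset.mem_singleton]
  constructor
  · intro hz
    exact Affine.Y_eq_of_X_eq hz h rfl
  · rintro (rfl | rfl)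
    · exact h
    · exact (W.equation_neg x₀ y).mpr h

theorem sq_dvd_of_fiber_eq_empty [W.IsElliptic] {R : k[X]} (hR : numN W = toCoord W R) {x₀ : k}
    (h : fiber W x₀ = ∅) : (X - C x₀) ^ 2 ∣ R := by
  classical
  let L := AlgebraicClosure k
  -- Over the closure take a point above `x₀`; it is not rational.
  obtain ⟨b, hb⟩ : ∃ b : L, (W⁄L).Equation (algebraMap k L x₀) b := by
    obtain ⟨b, hb⟩ := IsAlgClosed.exists_root
      (C 1 * X ^ 2 + C (algebraMap k L (W.a₁ * x₀ + W.a₃)) * X +
        C (-algebraMap k L (x₀ ^ 3 + W.a₂ * x₀ ^ 2 + W.a₄ * x₀ + W.a₆)))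
      (by rw [degree_quadratic one_ne_zero]; decide)
    refine ⟨b, ?_⟩
    rw [equation_baseChange_iff]
    simp at hb
    linear_combination hb
  have hbk : ∀ a : k, b ≠ algebraMap k L a := by
    rintro a rfl
    have ha : a ∈ fiber W x₀ := by
      rw [mem_fiber, Affine.equation_iff]
      rw [equation_baseChange_iff] at hb
      exact (algebraMap k L).injective (by simpa only [map_add, map_mul, map_pow] using hb)
    simp [h] at ha
  -- Its Frobenius conjugate is the opposite point, so `numE` vanishes there.
  have hbq : (W⁄L).Equation (algebraMap k L x₀) (b ^ q) := by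
    have := (equation_baseChange_iff W _ _).mp hb
    rw [equation_baseChange_iff]
    have h2 := congrArg (frobHom (k := k) L) this
    simp only [map_add, map_mul, map_pow, AlgHom.commutes] at h2
    simpa only [frobHom_apply] using h2
  have hE : evalHom hb (numE W) = 0 := by
    rcases Affine.Y_eq_of_X_eq hbq hb rfl with h1 | h1
    · obtain ⟨a, ha⟩ := eq_algebraMap_of_pow_card h1
      exact absurd ha (hbk a)
    · rw [numE, map_sub, map_pow, evalHom_rootY, conjCoord_rootY, map_sub, map_neg,
        evalHom_rootY, evalHom_toCoord, h1]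
      simp [Affine.negY]
      ring
  obtain ⟨A, B, hAB⟩ := exists_eq_add_mul_rootY W (numE W)
  rw [hAB, map_add, map_mul, evalHom_toCoord, evalHom_toCoord, evalHom_rootY,
    aeval_algebraMap_apply_eq_algebraMap_eval, aeval_algebraMap_apply_eq_algebraMap_eval] at hE
  -- Both coordinates of `numE` vanish at `x₀`, so the norm vanishes doubly.
  have hB : B.eval x₀ = 0 := by
    by_contra hB
    refine hbk (-A.eval x₀ / B.eval x₀) ?_
    rw [map_div₀, map_neg, eq_div_iff ((_root_.map_ne_zero _).mpr hB)]
    linear_combination hE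
  have hA : A.eval x₀ = 0 := by simpa [hB] using hE
  obtain ⟨A', rfl⟩ := dvd_iff_isRoot.mpr hA
  obtain ⟨B', rfl⟩ := dvd_iff_isRoot.mpr hB
  obtain ⟨D₁, hD₁⟩ := exists_frobPoly_eq x₀
  refine dvd_of_toCoord_mul W (t := (X - C x₀) ^ 2)
    (z := (toCoord W A' + toCoord W B' * rootY W) ^ 2 +
      toCoord W (C W.a₁) * (toCoord W A' + toCoord W B' * rootY W) * toCoord W D₁ -
      toCoord W ((C W.a₂ + X ^ q + X) * D₁ ^ 2)) ?_
  rw [← hR, numN, hAB, hD₁]
  simp only [map_mul, map_pow]
  ring

theorem eval_ne_zero_of_fiber [W.IsElliptic] {R : k[X]} (hR : numN W = toCoord W R) {x₀ y₀ : k}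
    (h : W.Equation x₀ y₀) (hne : y₀ ≠ W.negY x₀ y₀) : R.eval x₀ ≠ 0 := by
  intro h0
  have := aeval_numN W hR (L := k) (b := y₀) (equation_algebraMap W h)
  rw [h0, map_zero, eq_comm, sq_eq_zero_iff, sub_eq_zero, FiniteField.pow_card] at this
  exact hne (this.trans (by simp [Affine.negY]))

theorem dvd_and_not_sq_dvd [W.IsElliptic] {R : k[X]} (hR : numN W = toCoord W R) {x₀ y₀ : k}
    (h : W.Equation x₀ y₀) (heq : y₀ = W.negY x₀ y₀) :
    (X - C x₀) ∣ R ∧ ¬ (X - C x₀) ^ 2 ∣ R := by
  have hev := aeval_numN W hR (L := k) (b := y₀) (equation_algebraMap W h)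
  have h2 : 2 * y₀ + W.a₁ * x₀ + W.a₃ = 0 := by
    rw [Affine.negY] at heq; linear_combination heq
  have hdvd : (X - C x₀) ∣ R := by
    rw [dvd_iff_isRoot, IsRoot]
    rw [FiniteField.pow_card] at hev
    simp [Affine.negY] at hev
    linear_combination hev + (2 * y₀ + W.a₁ * x₀ + W.a₃) * h2
  refine ⟨hdvd, ?_⟩
  set η := rootY W - toCoord W (C y₀) with hη
  set t := toCoord W (X - C x₀) with ht
  set g₁ : k[X] := X ^ 2 + C x₀ * X + C (x₀ ^ 2) + C W.a₂ * (X + C x₀) +
    C (W.a₄ - W.a₁ * y₀) with hg₁
  -- Write `numE = η + t S` and `numN = t M`. A second factor `t` would make `M`, hence the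
  -- `X`-partial of the equation, vanish at the point, against nonsingularity.
  have hη2 : η ^ 2 = t * (toCoord W g₁ - toCoord W (C W.a₁) * η) := by
    have hy := congrArg (fun a : k => toCoord W (C a)) ((W.equation_iff x₀ y₀).mp h)
    have h2' := congrArg (fun a : k => toCoord W (C a)) h2
    have he := rootY_equation W
    simp only [hη, ht, hg₁, map_add, map_sub, map_mul, map_pow, map_zero, map_ofNat]
      at hy h2' he ⊢
    linear_combination he - hy - h2' * (rootY W - toCoord W (C y₀))
  obtain ⟨j, hj⟩ : ∃ j, q = j + 2 := ⟨q - 2, by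
    have h1 : 1 < q := Fintype.one_lt_card
    omega⟩
  have hηq : rootY W ^ q = η ^ q + toCoord W (C y₀) := by
    have h1 := map_add (frobHom (k := k) W.CoordinateRing) η (toCoord W (C y₀))
    rw [show η + toCoord W (C y₀) = rootY W by rw [hη]; ring, toCoord_C,
      AlgHom.commutes] at h1
    simpa only [frobHom_apply, ← toCoord_C] using h1
  set S := η ^ j * (toCoord W g₁ - toCoord W (C W.a₁) * η) + toCoord W (C W.a₁) with hS
  have hE : numE W = η + t * S := by
    have h2' := congrArg (fun a : k => toCoord W (C a)) h2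
    rw [numE, conjCoord_rootY, hηq, hj, pow_add, hη2, hS]
    simp only [hη, ht, map_add, map_sub, map_mul, map_zero, map_ofNat] at h2' ⊢
    linear_combination h2'
  obtain ⟨D₁, hD₁⟩ := exists_frobPoly_eq x₀
  set M := toCoord W g₁ - toCoord W (C W.a₁) * η + 2 * η * S + t * S ^ 2 +
    toCoord W (C W.a₁) * numE W * toCoord W D₁ -
    t * toCoord W ((C W.a₂ + X ^ q + X) * D₁ ^ 2) with hM
  have hN : numN W = t * M := by
    rw [numN, hM, hD₁]
    simp only [map_mul, map_pow, ← ht]
    rw [hE]
    linear_combination hη2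
  rintro ⟨U, hU⟩
  have htne : t ≠ 0 := by
    rw [ht]
    exact (map_ne_zero_iff _ (toCoord_injective W)).mpr (X_sub_C_ne_zero x₀)
  have hMU : M = t * toCoord W U := by
    apply mul_left_cancel₀ htne
    rw [← hN, hR, hU, map_mul, map_pow, ← ht]
    ring
  have hk := equation_algebraMap W (L := k) h
  have hevη : evalHom hk η = 0 := by
    rw [hη, map_sub, evalHom_rootY, evalHom_toCoord]; simp
  have hevt : evalHom hk t = 0 := by
    rw [ht, evalHom_toCoord]; simp
  have hevE : evalHom hk (numE W) = 0 := by
    rw [hE, map_add, map_mul, hevη, hevt, zero_mul, add_zero]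
  have := congrArg (evalHom hk) hMU
  simp only [hM, map_sub (evalHom hk), map_add (evalHom hk), map_mul (evalHom hk),
    map_pow (evalHom hk), hevη, hevt, hevE, mul_zero, zero_mul, sub_zero, add_zero,
    evalHom_toCoord] at this
  have hns := (Affine.equation_iff_nonsingular (W := W)).mp h
  rw [Affine.nonsingular_iff'] at hns
  refine (hns.2.resolve_right (fun hY => hY h2)) ?_
  simp [hg₁] at this
  linear_combination -this

open scoped Classical in
/-- The number of rational points is one plus the sum of the fibre sizes. -/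
theorem natCard_point [W.IsElliptic] :
    Nat.card W.Point = 1 + ∑ x₀ : k, (fiber W x₀).card := by
  have e : W.Point ≃ Option (Σ x₀ : k, fiber W x₀) :=
    { toFun := fun P => match P with
        | .zero => none
        | .some x y h => some ⟨x, y, (mem_fiber W).mpr h.1⟩
      invFun := fun o => match o with
        | none => .zero
        | some ⟨x, y, h⟩ => .some x y (Affine.equation_iff_nonsingular.mp ((mem_fiber W).mp h))
      left_inv := by rintro (_ | ⟨x, y, h⟩) <;> rfl
      right_inv := by rintro (_ | ⟨x, y, h⟩) <;> rfl }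
  rw [Nat.card_congr e, Nat.card_eq_fintype_card, Fintype.card_option, Fintype.card_sigma,
    add_comm]
  simp [Fintype.card_coe]

/-! ### The Frobenius point -/

/-- The Frobenius map on points. -/
noncomputable def frobPoint (L : Type*) [Field L] [Algebra k L] [DecidableEq L] :
    (W⁄L).Point →+ (W⁄L).Point :=
  Affine.Point.map (W' := W) (frobHom (k := k) L)

theorem frobPoint_mem_antiPoints [W.IsElliptic] {P : (W⁄W.FunctionField).Point}
    (hP : P ∈ antiPoints W) : frobPoint W W.FunctionField P ∈ antiPoints W :=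
  map_mem_antiPoints _ (AlgHom.ext fun z => by simp [map_pow]) hP

private theorem card_fiber_le_two (x₀ : k) : (fiber W x₀).card ≤ 2 := by
  classical
  by_cases hf : fiber W x₀ = ∅
  · simp [hf]
  · obtain ⟨y, hy⟩ := Finset.nonempty_iff_ne_empty.mpr hf
    rw [fiber_eq W ((mem_fiber W).mp hy)]
    exact (Finset.card_insert_le _ _).trans (by simp)

/-! ### The cancellation -/

/-- Manin's numerator vanishes at `x₀` to the order by which its fibre falls short of two points. -/
private theorem pow_dvd_of_fiber [W.IsElliptic] {R : k[X]} (hR : numN W = toCoord W R) (x₀ : k) :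
    (X - C x₀) ^ (2 - (fiber W x₀).card) ∣ R := by
  classical
  by_cases hf : fiber W x₀ = ∅
  · simpa [hf] using sq_dvd_of_fiber_eq_empty W hR hf
  · obtain ⟨y, hy⟩ := Finset.nonempty_iff_ne_empty.mpr hf
    have hy' := (mem_fiber W).mp hy
    rw [fiber_eq W hy']
    by_cases hyn : y = W.negY x₀ y
    · rw [← hyn, Finset.insert_eq_of_mem (Finset.mem_singleton_self y), Finset.card_singleton,
        pow_one]
      exact (dvd_and_not_sq_dvd W hR hy' hyn).1
    · rw [Finset.card_pair hyn, Nat.sub_self, pow_zero]
      exact one_dvd R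

/-- After cancelling these factors, numerator and denominator are coprime. -/
private theorem isCoprime_cancelled [W.IsElliptic] {R R' : k[X]} (hR : numN W = toCoord W R)
    (hR' : R = (∏ x₀ : k, (X - C x₀) ^ (2 - (fiber W x₀).card)) * R') :
    IsCoprime R' (∏ x₀ : k, (X - C x₀) ^ (fiber W x₀).card) := by
  classical
  refine IsCoprime.prod_right fun x₀ _ => ?_
  by_cases hn : (fiber W x₀).card = 0
  · rw [hn, pow_zero]; exact isCoprime_one_right
  refine IsCoprime.pow_right ?_
  rw [isCoprime_comm, (irreducible_X_sub_C x₀).coprime_iff_not_dvd]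
  intro hdvd'
  obtain ⟨y, hy⟩ := Finset.card_pos.mp (Nat.pos_of_ne_zero hn)
  have hy' := (mem_fiber W).mp hy
  by_cases hyn : y = W.negY x₀ y
  · -- a fibre with one point accounts for exactly one factor of `R`
    refine (dvd_and_not_sq_dvd W hR hy' hyn).2 ?_
    rw [hR', sq]
    refine mul_dvd_mul ?_ hdvd'
    have he1 : 2 - (fiber W x₀).card = 1 := by rw [fiber_eq W hy', ← hyn]; simp
    calc X - C x₀ = (X - C x₀) ^ (2 - (fiber W x₀).card) := by rw [he1, pow_one]
      _ ∣ ∏ x : k, (X - C x) ^ (2 - (fiber W x).card) :=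
        Finset.dvd_prod_of_mem (fun x => (X - C x) ^ (2 - (fiber W x).card))
          (Finset.mem_univ x₀)
  · -- a fibre with two points is prime to `R`
    refine eval_ne_zero_of_fiber W hR hy' hyn ?_
    rw [hR', eval_mul, dvd_iff_isRoot.mp hdvd', mul_zero]

open scoped Classical in
/-- Manin's fraction in lowest terms is the abscissa of `φ P - P` at the generic point `P`. -/
private theorem isRep_frobPoint_gen_sub_gen [W.IsElliptic] {R G R' Z : k[X]}
    (hR : numN W = toCoord W R) (hR' : R = G * R') (hGZ : frobPoly k ^ 2 = G * Z)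
    (hcop : IsCoprime R' Z) :
    IsRep (frobPoint W W.FunctionField (gen W) - gen W) ![R', Z] := by
  have hGZ0 : G * Z ≠ 0 := hGZ ▸ pow_ne_zero 2 frobPoly_ne_zero
  refine ⟨primitive_pair_of_isCoprime hcop, toFun' W Z, (map_ne_zero_iff _
    (toFun'_injective W)).mpr (right_ne_zero_of_mul hGZ0), ?_⟩
  have hD : genX W ^ q - genX W ≠ 0 := by
    rw [genX, ← map_pow, ← map_sub]
    exact (map_ne_zero_iff _ (toFun'_injective W)).mpr frobPoly_ne_zero
  have hneq : genX W ^ q ≠ genX W := sub_ne_zero.mp hD
  intro i
  rw [sub_eq_add_neg, frobPoint, gen, Affine.Point.map_some, Affine.Point.neg_some,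
    Affine.Point.add_of_X_ne (by simpa [frobHom_apply] using hneq), Affine.Point.xRep_some]
  fin_cases i
  · simp only [Fin.zero_eta, Fin.isValue, Matrix.cons_val_zero, frobHom_apply]
    -- multiply through by `G` and compare with the definition of `numN`
    refine mul_left_cancel₀ ((map_ne_zero_iff _ (toFun'_injective W)).mpr
      (left_ne_zero_of_mul hGZ0)) ?_
    rw [← map_mul, ← hR', ← mul_assoc, ← map_mul, ← hGZ,
      show toFun' W R = algebraMap _ W.FunctionField (toCoord W R) from rfl, ← hR,
      Affine.slope_of_X_ne hneq, numN, numE]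
    simp only [map_sub (algebraMap W.CoordinateRing W.FunctionField),
      map_add (algebraMap W.CoordinateRing W.FunctionField),
      map_mul (algebraMap W.CoordinateRing W.FunctionField),
      map_pow (algebraMap W.CoordinateRing W.FunctionField), ← conjField_algebraMap]
    simp only [show algebraMap W.CoordinateRing W.FunctionField (rootY W) = genY W from rfl,
      ← IsScalarTower.algebraMap_apply k W.CoordinateRing W.FunctionField,
      conjField_genY, show ∀ p, algebraMap W.CoordinateRing W.FunctionField (toCoord W p) =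
        toFun' W p from fun _ => rfl, frobPoly, map_mul, map_add, map_sub, map_pow,
      ← Polynomial.algebraMap_eq, AlgHom.commutes, show toFun' W X = genX W from rfl]
    have ha1 : (W⁄W.FunctionField).a₁ = algebraMap k W.FunctionField W.a₁ := rfl
    have ha2 : (W⁄W.FunctionField).a₂ = algebraMap k W.FunctionField W.a₂ := rfl
    rw [Affine.addX, ha1, ha2]
    field_simp
    ring
  · simp

open scoped Classical in
/-- Manin: the degree of `φ - 1` is the number of rational points. -/
theorem xDeg_frobPoint_gen_sub_gen [W.IsElliptic] :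
    xDeg (frobPoint W W.FunctionField (gen W) - gen W) = Nat.card W.Point := by
  obtain ⟨R, hR, hRdeg⟩ := exists_numN_eq W
  have hR0 : R ≠ 0 := fun h => by simp [DegTop, h] at hRdeg
  set e : k → ℕ := fun x₀ => 2 - (fiber W x₀).card with he
  set G : k[X] := ∏ x₀ : k, (X - C x₀) ^ e x₀ with hG
  set Z : k[X] := ∏ x₀ : k, (X - C x₀) ^ (fiber W x₀).card with hZ
  -- `G` is the part common to numerator and denominator
  have hcop : Pairwise fun a b : k => IsCoprime ((X - C a) ^ e a) ((X - C b) ^ e b) :=
    fun a b hab => ((pairwise_coprime_X_sub_C Function.injective_id) hab).pow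
  obtain ⟨R', hR'⟩ : G ∣ R := Fintype.prod_dvd_of_coprime hcop (pow_dvd_of_fiber W hR)
  have hGZ : frobPoly k ^ 2 = G * Z := by
    rw [frobPoly_eq_prod, hG, hZ, ← Finset.prod_pow, ← Finset.prod_mul_distrib]
    refine Finset.prod_congr rfl fun x₀ _ => ?_
    rw [← pow_add, he, Nat.sub_add_cancel (card_fiber_le_two W x₀)]
  have hG0 : G ≠ 0 := fun h => hR0 (by rw [hR', h, zero_mul])
  -- compare degrees
  have hGd : G.natDegree = ∑ x₀ : k, e x₀ := by
    rw [hG, natDegree_prod _ _ fun x₀ _ => pow_ne_zero _ (X_sub_C_ne_zero x₀)]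
    simp
  have hZd : Z.natDegree = ∑ x₀ : k, (fiber W x₀).card := by
    rw [hZ, natDegree_prod _ _ fun x₀ _ => pow_ne_zero _ (X_sub_C_ne_zero x₀)]
    simp
  have hsum : ∑ x₀ : k, e x₀ + ∑ x₀ : k, (fiber W x₀).card = 2 * q := by
    rw [← Finset.sum_add_distrib]
    simp_rw [he, Nat.sub_add_cancel (card_fiber_le_two W _)]
    simp [Finset.sum_const, mul_comm]
  have hRd : R.natDegree = 2 * q + 1 :=
    le_antisymm hRdeg.1 (le_natDegree_of_ne_zero (by rw [hRdeg.2]; exact one_ne_zero))
  have hR'0 : R' ≠ 0 := fun h => hR0 (by rw [hR', h, mul_zero])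
  have hR'd : R'.natDegree = 1 + ∑ x₀ : k, (fiber W x₀).card := by
    rw [hR', natDegree_mul hG0 hR'0] at hRd
    omega
  rw [(isRep_frobPoint_gen_sub_gen W hR hR' hGZ (isCoprime_cancelled W hR hR')).xDeg_eq,
    natCard_point]
  refine le_antisymm (Finset.sup_le fun i _ => ?_)
    (le_trans hR'd.ge (natDegree_le_supDeg ![R', Z] 0))
  fin_cases i
  · exact hR'd.le
  · exact hZd.le.trans (Nat.le_add_left _ _)

end Fermat.Agent.EC.FrobTrace
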