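import Fermat.Agent.EC.Torsion.AddSub
import Mathlib.RingTheory.MvPolynomial.Homogeneous
import Mathlib.Algebra.Polynomial.BigOperators
import Mathlib.RingTheory.PrincipalIdealDomain
import Mathlib.FieldTheory.IsAlgClosed.AlgebraicClosure

/-!
# Primitive vectors of polynomials and their degrees

A vector of polynomials in one variable over a field is primitive if its entries generate the unit
ideal. Its degree is the maximum of the degrees of the entries; it only depends on the point of
projective space over the rational functions, and multiplies under forms without common zero.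
-/

set_option autoImplicit false

open Polynomial
open Fermat.Agent.EC.Torsion (sym2v)

namespace Fermat.Agent.EC.FrobTrace

variable {k : Type*} [Field k]

/-- `f` has degree at most `n` and `c` is its coefficient in degree `n`. -/
def DegTop (f : k[X]) (n : ℕ) (c : k) : Prop :=
  f.natDegree ≤ n ∧ f.coeff n = c

/-- Degree bounds add and top coefficients multiply in products. -/
theorem DegTop.mul {f g : k[X]} {m n : ℕ} {a b : k} (hf : DegTop f m a) (hg : DegTop g n b) :
    DegTop (f * g) (m + n) (a * b) := by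
  refine ⟨natDegree_mul_le.trans (add_le_add hf.1 hg.1), ?_⟩
  rw [coeff_mul_add_eq_of_natDegree_le hf.1 hg.1, hf.2, hg.2]

/-- Degree bound and top coefficient of a power. -/
theorem DegTop.pow {f : k[X]} {m : ℕ} {a : k} (hf : DegTop f m a) (e : ℕ) :
    DegTop (f ^ e) (e * m) (a ^ e) :=
  ⟨natDegree_pow_le.trans (Nat.mul_le_mul_left e hf.1), by
    rw [coeff_pow_of_natDegree_le hf.1, hf.2]⟩

theorem degTop_prod {ι : Type*} (s : Finset ι) {f : ι → k[X]} {n : ι → ℕ} {c : ι → k}
    (h : ∀ i ∈ s, DegTop (f i) (n i) (c i)) :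
    DegTop (∏ i ∈ s, f i) (∑ i ∈ s, n i) (∏ i ∈ s, c i) := by
  classical
  induction s using Finset.induction with
  | empty => simp [DegTop]
  | insert a s ha ih =>
    rw [Finset.prod_insert ha, Finset.sum_insert ha, Finset.prod_insert ha]
    exact (h a (Finset.mem_insert_self a s)).mul
      (ih fun i hi => h i (Finset.mem_insert_of_mem hi))

theorem degTop_sum {ι : Type*} (s : Finset ι) {f : ι → k[X]} {n : ℕ} {c : ι → k}
    (h : ∀ i ∈ s, DegTop (f i) n (c i)) :
    DegTop (∑ i ∈ s, f i) n (∑ i ∈ s, c i) := by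
  refine ⟨natDegree_sum_le_of_forall_le s f fun i hi => (h i hi).1, ?_⟩
  rw [finsetSum_coeff]
  exact Finset.sum_congr rfl fun i hi => (h i hi).2

variable {ι : Type*} [Fintype ι]

/-- The degree of a vector of polynomials. -/
def supDeg (v : ι → k[X]) : ℕ := Finset.univ.sup fun i => (v i).natDegree

theorem natDegree_le_supDeg (v : ι → k[X]) (i : ι) : (v i).natDegree ≤ supDeg v :=
  Finset.le_sup (f := fun j => (v j).natDegree) (Finset.mem_univ i)

/-- The vector of top coefficients. -/
def topCoeff (v : ι → k[X]) : ι → k := fun i => (v i).coeff (supDeg v)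

/-- The entries generate the unit ideal. -/
def Primitive (v : ι → k[X]) : Prop := Ideal.span (Set.range v) = ⊤

omit [Fintype ι] in
/-- A primitive vector has a nonzero entry. -/
theorem Primitive.exists_ne_zero {v : ι → k[X]} (hv : Primitive v) : ∃ i, v i ≠ 0 := by
  by_contra h
  push Not at h
  have : Ideal.span (Set.range v) = ⊥ := by
    rw [Ideal.span_eq_bot]
    rintro _ ⟨i, rfl⟩
    exact h i
  rw [hv] at this
  exact bot_ne_top this.symm

/-- A primitive vector has a nonzero vector of top coefficients. -/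
theorem topCoeff_ne_zero {v : ι → k[X]} (hv : Primitive v) : topCoeff v ≠ 0 := by
  obtain ⟨j, hj⟩ := hv.exists_ne_zero
  intro h
  obtain ⟨i, -, hi⟩ :=
    Finset.exists_mem_eq_sup Finset.univ ⟨j, Finset.mem_univ j⟩ fun i => (v i).natDegree
  have hi' : supDeg v = (v i).natDegree := hi
  by_cases h0 : supDeg v = 0
  · have hj0 : (v j).natDegree = supDeg v := by
      have := natDegree_le_supDeg v j; omega
    have := congrFun h j
    rw [topCoeff, ← hj0, coeff_natDegree, Pi.zero_apply, leadingCoeff_eq_zero] at this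
    exact hj this
  · have := congrFun h i
    rw [topCoeff, hi', coeff_natDegree, Pi.zero_apply, leadingCoeff_eq_zero] at this
    simp [this] at hi'
    exact h0 hi'

/-- The degree is `n` if all entries have degree at most `n` and some has exactly `n`. -/
theorem supDeg_eq_of_degTop {v : ι → k[X]} {n : ℕ} {c : ι → k}
    (h : ∀ i, DegTop (v i) n (c i)) (hc : c ≠ 0) : supDeg v = n := by
  refine le_antisymm (Finset.sup_le fun i _ => (h i).1) ?_
  obtain ⟨i, hi⟩ := Function.ne_iff.mp hc
  refine le_trans ?_ (natDegree_le_supDeg v i)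
  refine le_natDegree_of_ne_zero ?_
  rw [(h i).2]
  exact hi

omit [Fintype ι] in
/-- A vector is primitive exactly when its entries have no common zero. -/
theorem primitive_iff_aeval {v : ι → k[X]} :
    Primitive v ↔ ∀ t : AlgebraicClosure k, ∃ i, aeval t (v i) ≠ 0 := by
  constructor
  · intro hv t
    by_contra h
    push Not at h
    have hle : Ideal.span (Set.range v) ≤
        RingHom.ker (aeval t : k[X] →ₐ[k] AlgebraicClosure k) := by
      rw [Ideal.span_le]
      rintro _ ⟨i, rfl⟩
      exact h i
    rw [hv, top_le_iff, Ideal.eq_top_iff_one, RingHom.mem_ker, map_one] at hle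
    exact one_ne_zero hle
  · intro h
    by_contra hne
    obtain ⟨g, hg⟩ : ∃ g, Ideal.span (Set.range v) = Ideal.span {g} :=
      ⟨_, (Ideal.span_singleton_generator _).symm⟩
    have hgu : ¬ IsUnit g := fun hu =>
      hne (by rw [Primitive, hg, Ideal.span_singleton_eq_top]; exact hu)
    obtain ⟨t, ht⟩ : ∃ t : AlgebraicClosure k, aeval t g = 0 := by
      by_cases hg0 : g = 0
      · exact ⟨0, by simp [hg0]⟩
      · exact IsAlgClosed.exists_aeval_eq_zero _ g fun hd => hgu (isUnit_iff_degree_eq_zero.mpr hd)
    obtain ⟨i, hi⟩ := h t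
    have : v i ∈ Ideal.span {g} := hg ▸ Ideal.subset_span ⟨i, rfl⟩
    obtain ⟨r, hr⟩ := Ideal.mem_span_singleton'.mp this
    exact hi (by rw [← hr, map_mul, ht, mul_zero])

/-- Proportional primitive vectors have the same degree. -/
theorem supDeg_eq_of_proportional {v w : ι → k[X]} (hv : Primitive v) (hw : Primitive w)
    (h : ∀ i j, v i * w j = v j * w i) : supDeg v = supDeg w := by
  have hv' : (1 : k[X]) ∈ Ideal.span (Set.range v) := hv ▸ Submodule.mem_top
  obtain ⟨c, hc⟩ := Ideal.mem_span_range_iff_exists_fun.mp hv'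
  have hw' : (1 : k[X]) ∈ Ideal.span (Set.range w) := hw ▸ Submodule.mem_top
  obtain ⟨e, he⟩ := Ideal.mem_span_range_iff_exists_fun.mp hw'
  have h1 : ∀ j, w j = (∑ i, c i * w i) * v j := fun j => by
    calc w j = (∑ i, c i * v i) * w j := by rw [hc, one_mul]
      _ = _ := by
        rw [Finset.sum_mul, Finset.sum_mul]
        exact Finset.sum_congr rfl fun i _ => by rw [mul_assoc, h i j, mul_assoc, mul_comm (v j)]
  have h2 : ∀ j, v j = (∑ i, e i * v i) * w j := fun j => by
    calc v j = (∑ i, e i * w i) * v j := by rw [he, one_mul]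
      _ = _ := by
        rw [Finset.sum_mul, Finset.sum_mul]
        exact Finset.sum_congr rfl fun i _ => by rw [mul_assoc, mul_comm (w i), h j i, mul_assoc]
  set a := ∑ i, c i * w i
  set b := ∑ i, e i * v i
  obtain ⟨j, hj⟩ := hv.exists_ne_zero
  have hu : IsUnit a := by
    refine IsUnit.of_mul_eq_one b (mul_right_cancel₀ hj ?_)
    calc a * b * v j = b * (a * v j) := by ring
      _ = b * w j := by rw [← h1]
      _ = 1 * v j := by rw [← h2, one_mul]
  obtain ⟨r, hr, hra⟩ := isUnit_iff.mp hu
  refine Finset.sup_congr rfl fun i _ => ?_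
  rw [h1 i, ← hra, natDegree_C_mul hr.ne_zero]

/-- Evaluation of a homogeneous form at a vector of polynomials. -/
theorem degTop_aeval {F : MvPolynomial ι k} {d : ℕ} (hF : F.IsHomogeneous d) {v : ι → k[X]}
    {D : ℕ} {a : ι → k} (hv : ∀ i, DegTop (v i) D (a i)) :
    DegTop (MvPolynomial.aeval v F) (d * D) (MvPolynomial.aeval a F) := by
  have hd : ∀ m ∈ F.support, ∑ i, m i = d := fun m hm => by
    have h1 : m.weight 1 = d := hF (by simpa using hm)
    rw [← h1]
    simp [Finsupp.weight_apply, Finsupp.sum_fintype]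
  rw [F.as_sum]
  simp only [map_sum, MvPolynomial.aeval_monomial]
  refine degTop_sum _ fun m hm => ?_
  rw [Finsupp.prod_fintype _ _ (fun i => pow_zero _),
    Finsupp.prod_fintype _ _ (fun i => pow_zero _)]
  have := degTop_prod Finset.univ (fun i _ => (hv i).pow (m i))
  rw [← Finset.sum_mul, hd m hm] at this
  have hC : DegTop (algebraMap k k[X] (F.coeff m)) 0 (algebraMap k k (F.coeff m)) := by
    simp [DegTop]
  simpa using hC.mul this

/-- Forms without common zero multiply the degree. -/
theorem primitive_comp {κ : Type*} [Fintype κ] {F : κ → MvPolynomial ι k} {d : ℕ}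
    (hF : ∀ j, (F j).IsHomogeneous d)
    (hnz : ∀ x : ι → AlgebraicClosure k, x ≠ 0 → ∃ j, MvPolynomial.aeval x (F j) ≠ 0)
    {v : ι → k[X]} (hv : Primitive v) :
    Primitive (fun j => MvPolynomial.aeval v (F j)) ∧
      supDeg (fun j => MvPolynomial.aeval v (F j)) = d * supDeg v := by
  constructor
  · rw [primitive_iff_aeval]
    intro t
    obtain ⟨i, hi⟩ := primitive_iff_aeval.mp hv t
    obtain ⟨j, hj⟩ := hnz (fun i => aeval t (v i)) (Function.ne_iff.mpr ⟨i, hi⟩)
    refine ⟨j, ?_⟩
    rw [← AlgHom.comp_apply, MvPolynomial.comp_aeval]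
    exact hj
  · refine supDeg_eq_of_degTop
      (fun j => degTop_aeval (hF j) fun i => ⟨natDegree_le_supDeg v i, rfl⟩) ?_
    have htop : (fun i => algebraMap k (AlgebraicClosure k) (topCoeff v i)) ≠ 0 := by
      obtain ⟨i, hi⟩ := Function.ne_iff.mp (topCoeff_ne_zero hv)
      exact Function.ne_iff.mpr ⟨i, by simpa using hi⟩
    obtain ⟨j, hj⟩ := hnz _ htop
    refine Function.ne_iff.mpr ⟨j, fun h => hj ?_⟩
    have := MvPolynomial.aeval_algebraMap_apply (B := AlgebraicClosure k) (topCoeff v) (F j)
    rw [show (algebraMap k (AlgebraicClosure k)) ∘ topCoeff v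
      = fun i => algebraMap k (AlgebraicClosure k) (topCoeff v i) from rfl] at this
    rw [this]
    simp only [Pi.zero_apply] at h
    rw [show topCoeff v = fun i => (v i).coeff (supDeg v) from rfl, h, map_zero]

omit [Fintype ι] in
theorem aeval_mul_of_isHomogeneous {S : Type*} [CommRing S] [Algebra k S]
    {F : MvPolynomial ι k} {d : ℕ} (hF : F.IsHomogeneous d) (c : S) (x : ι → S) :
    MvPolynomial.aeval (fun i => c * x i) F = c ^ d * MvPolynomial.aeval x F := by
  rw [F.as_sum]
  simp only [map_sum, MvPolynomial.aeval_monomial, Finset.mul_sum]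
  refine Finset.sum_congr rfl fun m hm => ?_
  have h1 : m.weight 1 = d := hF (by simpa using hm)
  rw [← h1, Finsupp.weight_apply]
  simp only [Finsupp.sum, Finsupp.prod, mul_pow, Finset.prod_mul_distrib, Pi.one_apply,
    smul_eq_mul, mul_one, Finset.prod_pow_eq_pow_sum]
  ring

theorem sym2v_ne_zero {R : Type*} [CommRing R] [NoZeroDivisors R] {v w : Fin 2 → R}
    (hv : v ≠ 0) (hw : w ≠ 0) : sym2v v w ≠ 0 := by
  intro h
  have h0 : v 0 * w 0 = 0 := congrFun h 0
  have h1 : v 0 * w 1 + v 1 * w 0 = 0 := congrFun h 1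
  have h2 : v 1 * w 1 = 0 := congrFun h 2
  rcases mul_eq_zero.mp h0 with a | a <;> rcases mul_eq_zero.mp h2 with b | b
  · exact hv (funext fun i => by fin_cases i <;> assumption)
  · rw [a, zero_mul, zero_add] at h1
    rcases mul_eq_zero.mp h1 with c | c
    · exact hv (funext fun i => by fin_cases i <;> assumption)
    · exact hw (funext fun i => by fin_cases i <;> assumption)
  · rw [b, zero_mul, add_zero] at h1
    rcases mul_eq_zero.mp h1 with c | c
    · exact hv (funext fun i => by fin_cases i <;> assumption)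
    · exact hw (funext fun i => by fin_cases i <;> assumption)
  · exact hw (funext fun i => by fin_cases i <;> assumption)

theorem primitive_sym2v {v w : Fin 2 → k[X]} (hv : Primitive v) (hw : Primitive w) :
    Primitive (sym2v v w) ∧ supDeg (sym2v v w) = supDeg v + supDeg w := by
  constructor
  · rw [primitive_iff_aeval]
    intro t
    obtain ⟨i, hi⟩ := primitive_iff_aeval.mp hv t
    obtain ⟨j, hj⟩ := primitive_iff_aeval.mp hw t
    have hne := sym2v_ne_zero (v := fun i => aeval t (v i)) (w := fun i => aeval t (w i))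
      (Function.ne_iff.mpr ⟨i, hi⟩) (Function.ne_iff.mpr ⟨j, hj⟩)
    obtain ⟨l, hl⟩ := Function.ne_iff.mp hne
    refine ⟨l, ?_⟩
    fin_cases l <;> simpa [sym2v] using hl
  · refine supDeg_eq_of_degTop (c := sym2v (topCoeff v) (topCoeff w)) ?_
      (sym2v_ne_zero (topCoeff_ne_zero hv) (topCoeff_ne_zero hw))
    have hm : ∀ i j, DegTop (v i * w j) (supDeg v + supDeg w) (topCoeff v i * topCoeff w j) :=
      fun i j => DegTop.mul ⟨natDegree_le_supDeg v i, rfl⟩ ⟨natDegree_le_supDeg w j, rfl⟩
    intro i
    fin_cases i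
    · simpa [sym2v] using hm 0 0
    · refine ⟨?_, ?_⟩
      · simpa [sym2v] using (natDegree_add_le _ _).trans (max_le (hm 0 1).1 (hm 1 0).1)
      · simp [sym2v, (hm 0 1).2, (hm 1 0).2]
    · simpa [sym2v] using hm 1 1

end Fermat.Agent.EC.FrobTrace
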